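import Mathlib

/-!
# S52 Part A (helper545): `X^q - X = ∏ (X - c)` over a finite field and its roots in extensions
-/

set_option autoImplicit false

namespace Fermat.Agent.S52.H545

open Polynomial

variable (F : Type*) [Field F] [Fintype F]

lemma prod_X_sub_C_eq : ∏ c : F, (X - C c) = (X ^ Fintype.card F - X : F[X]) := by
  have hq : 1 < Fintype.card F := Fintype.one_lt_card
  have hmon : (X ^ Fintype.card F - X : F[X]).Monic := by
    apply monic_X_pow_sub
    rw [degree_X]
    exact_mod_cast hq
  have hroots := FiniteField.roots_X_pow_card_sub_X F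
  have hcard : (X ^ Fintype.card F - X : F[X]).roots.card =
      (X ^ Fintype.card F - X : F[X]).natDegree := by
    rw [hroots, FiniteField.X_pow_card_sub_X_natDegree_eq F hq]
    simp
  have := prod_multiset_X_sub_C_of_monic_of_roots_card_eq hmon hcard
  rw [hroots] at this
  rw [← this]
  rfl

variable {F}

lemma pow_card_sub_eq_prod {L : Type*} [CommRing L] [Algebra F L] (z : L) :
    z ^ Fintype.card F - z = ∏ c : F, (z - algebraMap F L c) := by
  have := congrArg (eval₂ (algebraMap F L) z) (prod_X_sub_C_eq F)
  rw [eval₂_finsetProd] at this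
  simpa using this.symm

/-- In a domain containing the finite field `F`, the solutions of `z^q = z` are the elements of
`F`. -/
lemma exists_eq_algebraMap_of_pow_card_eq {L : Type*} [CommRing L] [IsDomain L] [Algebra F L]
    {z : L} (hz : z ^ Fintype.card F = z) : ∃ c : F, z = algebraMap F L c := by
  have h := pow_card_sub_eq_prod (F := F) z
  rw [hz, sub_self] at h
  obtain ⟨c, -, hc⟩ := Finset.prod_eq_zero_iff.mp h.symm
  exact ⟨c, sub_eq_zero.mp hc⟩

end Fermat.Agent.S52.H545
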