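import Mathlib

/-!
# S52 Part A (helper545): exact heights of polynomial vectors under the add-sub map

Pure polynomial algebra over a field `k`.  For a vector `v : Fin n → k[X]` put
`maxDeg v = max_i natDegree (v i)` and call `v` *primitive* if its entries generate the unit
ideal.  We show:

* `prim_asv`, `maxDeg_asv` : Mathlib's `addSubMap` of an elliptic curve `W/k` maps primitive
  vectors to primitive vectors and exactly doubles `maxDeg`;
* `prim_sv`, `maxDeg_sv` : (Gauss) the symmetric product `(a₀b₀, a₀b₁ + a₁b₀, a₁b₁)` of two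
  primitive pairs is primitive and `maxDeg` is additive;
* `maxDeg_eq_of_cross` : two primitive vectors with vanishing cross products have the same
  `maxDeg`.
-/

set_option autoImplicit false

namespace Fermat.Agent.S52.H545

open Polynomial

section Defs

variable {R : Type*} [CommRing R]

/-- The explicit add-sub vector (values of Mathlib's `WeierstrassCurve.addSubMap`). -/
def asv (W : WeierstrassCurve R) (v : Fin 3 → R) : Fin 3 → R :=
  ![v 0 ^ 2 - W.b₄ * v 0 * v 2 - W.b₆ * v 1 * v 2 - W.b₈ * v 2 ^ 2,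
    2 * v 1 * v 0 + W.b₂ * v 0 * v 2 + W.b₄ * v 1 * v 2 + W.b₆ * v 2 ^ 2,
    v 1 ^ 2 - 4 * v 0 * v 2]

lemma asv_eq_eval (W : WeierstrassCurve R) (v : Fin 3 → R) :
    asv W v = fun i => MvPolynomial.eval v (W.addSubMap i) := by
  funext i
  fin_cases i <;> simp [asv, WeierstrassCurve.addSubMap]

/-- The symmetric product of two pairs (as in Mathlib's `Point.sym2x`). -/
def sv (a b : Fin 2 → R) : Fin 3 → R :=
  ![a 0 * b 0, a 0 * b 1 + a 1 * b 0, a 1 * b 1]

lemma asv_smul (W : WeierstrassCurve R) (c : R) (v : Fin 3 → R) :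
    asv W (c • v) = c ^ 2 • asv W v := by
  funext i
  fin_cases i <;> simp [asv] <;> ring

lemma sv_smul (c d : R) (a b : Fin 2 → R) : sv (c • a) (d • b) = (c * d) • sv a b := by
  funext i
  fin_cases i <;> simp [sv] <;> ring

lemma asv_map {S : Type*} [CommRing S] (φ : R →+* S) (W : WeierstrassCurve R) (v : Fin 3 → R) :
    asv (W.map φ) (φ ∘ v) = φ ∘ asv W v := by
  funext i
  fin_cases i <;> simp [asv, map_ofNat]

lemma sv_map {S : Type*} [CommRing S] (φ : R →+* S) (a b : Fin 2 → R) :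
    sv (φ ∘ a) (φ ∘ b) = φ ∘ sv a b := by
  funext i
  fin_cases i <;> simp [sv]

/-- A vector is primitive if its entries generate the unit ideal. -/
def Prim {n : ℕ} (v : Fin n → R) : Prop := Ideal.span (Set.range v) = ⊤

lemma prim_iff {n : ℕ} (v : Fin n → R) : Prim v ↔ ∃ c : Fin n → R, ∑ i, c i * v i = 1 := by
  rw [Prim, Ideal.eq_top_iff_one, Ideal.mem_span_range_iff_exists_fun]

lemma Prim.ne_zero [Nontrivial R] {n : ℕ} {v : Fin n → R} (h : Prim v) : v ≠ 0 := by
  rintro rfl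
  obtain ⟨c, hc⟩ := (prim_iff _).mp h
  simp at hc

lemma prim_pair_iff (a : Fin 2 → R) : Prim a ↔ IsCoprime (a 0) (a 1) := by
  rw [prim_iff]
  constructor
  · rintro ⟨c, hc⟩
    exact ⟨c 0, c 1, by simpa [Fin.sum_univ_two] using hc⟩
  · rintro ⟨x, y, h⟩
    exact ⟨![x, y], by simpa [Fin.sum_univ_two] using h⟩

/-- If an ideal contains all entries of `asv W v` then it contains the fourth powers of the
entries of `v` (for `W` elliptic). -/
lemma pow_four_mem_of_asv_mem (W : WeierstrassCurve R) [W.IsElliptic] (v : Fin 3 → R)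
    (I : Ideal R) (h : ∀ j, asv W v j ∈ I) (i : Fin 3) : v i ^ 4 ∈ I := by
  rw [← W.addSubMapCoeff_condition v i]
  refine Ideal.sum_mem _ fun j _ => Ideal.mul_mem_left _ _ ?_
  have := h j
  rwa [asv_eq_eval] at this

theorem prim_asv (W : WeierstrassCurve R) [W.IsElliptic] {v : Fin 3 → R} (hv : Prim v) :
    Prim (asv W v) := by
  have h4 := Ideal.span_pow_eq_top _ hv 4
  rw [Prim, eq_top_iff, ← h4, Ideal.span_le]
  rintro _ ⟨_, ⟨i, rfl⟩, rfl⟩
  exact pow_four_mem_of_asv_mem W v (Ideal.span (Set.range (asv W v)))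
    (fun j => Ideal.subset_span ⟨j, rfl⟩) i

theorem prim_sv {a b : Fin 2 → R} (ha : Prim a) (hb : Prim b) : Prim (sv a b) := by
  rw [prim_pair_iff] at ha hb
  by_contra hne
  obtain ⟨m, hm, hle⟩ := Ideal.exists_le_maximal _ hne
  have hp := hm.isPrime
  have h0 : a 0 * b 0 ∈ m := hle (Ideal.subset_span ⟨0, rfl⟩)
  have h1 : a 0 * b 1 + a 1 * b 0 ∈ m := hle (Ideal.subset_span ⟨1, rfl⟩)
  have h2 : a 1 * b 1 ∈ m := hle (Ideal.subset_span ⟨2, rfl⟩)
  have hac : ¬ (a 0 ∈ m ∧ a 1 ∈ m) := by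
    rintro ⟨x0, x1⟩
    obtain ⟨x, y, hxy⟩ := ha
    apply hp.ne_top
    rw [Ideal.eq_top_iff_one, ← hxy]
    exact Ideal.add_mem _ (Ideal.mul_mem_left _ _ x0) (Ideal.mul_mem_left _ _ x1)
  have hbc : ¬ (b 0 ∈ m ∧ b 1 ∈ m) := by
    rintro ⟨x0, x1⟩
    obtain ⟨x, y, hxy⟩ := hb
    apply hp.ne_top
    rw [Ideal.eq_top_iff_one, ← hxy]
    exact Ideal.add_mem _ (Ideal.mul_mem_left _ _ x0) (Ideal.mul_mem_left _ _ x1)
  rcases hp.mem_or_mem h0 with ha0 | hb0
  · have ha1 : a 1 ∉ m := fun h => hac ⟨ha0, h⟩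
    have hb1 : b 1 ∈ m := (hp.mem_or_mem h2).resolve_left ha1
    have : a 1 * b 0 ∈ m := by
      have := Ideal.sub_mem _ h1 (Ideal.mul_mem_left _ (a 0) hb1)
      simpa using this
    exact hbc ⟨(hp.mem_or_mem this).resolve_left ha1, hb1⟩
  · have hb1 : b 1 ∉ m := fun h => hbc ⟨hb0, h⟩
    have ha1 : a 1 ∈ m := (hp.mem_or_mem h2).resolve_right hb1
    have : a 0 * b 1 ∈ m := by
      have := Ideal.sub_mem _ h1 (Ideal.mul_mem_right (b 0) _ ha1)
      simpa using this
    exact hac ⟨(hp.mem_or_mem this).resolve_right hb1, ha1⟩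

end Defs

section Poly

variable {k : Type*} [Field k]

/-- The maximum of the degrees of the entries. -/
noncomputable def maxDeg {n : ℕ} (v : Fin n → k[X]) : ℕ :=
  Finset.univ.sup fun i => (v i).natDegree

lemma natDegree_le_maxDeg {n : ℕ} (v : Fin n → k[X]) (i : Fin n) :
    (v i).natDegree ≤ maxDeg v :=
  Finset.le_sup (f := fun i => (v i).natDegree) (Finset.mem_univ i)

lemma maxDeg_le {n : ℕ} {v : Fin n → k[X]} {D : ℕ} (h : ∀ i, (v i).natDegree ≤ D) :
    maxDeg v ≤ D :=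
  Finset.sup_le fun i _ => h i

/-- The vector of coefficients in degree `D`. -/
noncomputable def topc {n : ℕ} (D : ℕ) (v : Fin n → k[X]) : Fin n → k := fun i => (v i).coeff D

lemma topc_ne_zero {n : ℕ} {v : Fin n → k[X]} (hv : v ≠ 0) : topc (maxDeg v) v ≠ 0 := by
  have hn : (Finset.univ : Finset (Fin n)).Nonempty := by
    by_contra h
    rw [Finset.not_nonempty_iff_eq_empty, Finset.univ_eq_empty_iff] at h
    exact hv (funext fun i => (h.false i).elim)
  obtain ⟨i₀, -, hi₀⟩ := Finset.exists_mem_eq_sup _ hn fun i => (v i).natDegree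
  intro h0
  by_cases hz : v i₀ = 0
  · -- all degrees are zero
    have hD : maxDeg v = 0 := by rw [maxDeg, hi₀, hz, natDegree_zero]
    apply hv
    funext j
    have hj : (v j).natDegree = 0 := Nat.le_zero.mp (hD ▸ natDegree_le_maxDeg v j)
    have hc := congrFun h0 j
    rw [topc, hD] at hc
    rw [eq_C_of_natDegree_eq_zero hj, hc]
    simp
  · have hc := congrFun h0 i₀
    rw [topc, maxDeg, hi₀, coeff_natDegree] at hc
    exact hz (leadingCoeff_eq_zero.mp hc)

lemma maxDeg_eq_of_topc_ne_zero {n : ℕ} {v : Fin n → k[X]} {D : ℕ}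
    (hle : ∀ i, (v i).natDegree ≤ D) (h : topc D v ≠ 0) : maxDeg v = D := by
  apply le_antisymm (maxDeg_le hle)
  by_contra hlt
  push Not at hlt
  apply h
  funext i
  exact coeff_eq_zero_of_natDegree_lt (lt_of_le_of_lt (natDegree_le_maxDeg v i) hlt)

variable (W : WeierstrassCurve k)

/-- The curve with constant coefficients over `k[X]`. -/
noncomputable abbrev polyCurve : WeierstrassCurve k[X] := W.map (C : k →+* k[X])

lemma nd_sub {p q : k[X]} {n : ℕ} (hp : p.natDegree ≤ n) (hq : q.natDegree ≤ n) :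
    (p - q).natDegree ≤ n :=
  (natDegree_sub_le _ _).trans (max_le hp hq)

lemma natDegree_asv_le (v : Fin 3 → k[X]) {D : ℕ} (h : ∀ i, (v i).natDegree ≤ D) (j : Fin 3) :
    (asv (polyCurve W) v j).natDegree ≤ D + D := by
  have hC : ∀ (a : k) (i₁ i₂ : Fin 3), (C a * v i₁ * v i₂).natDegree ≤ D + D := fun a i₁ i₂ => by
    rw [mul_assoc]
    exact (natDegree_C_mul_le _ _).trans (natDegree_mul_le_of_le (h i₁) (h i₂))
  have hsq : ∀ i : Fin 3, (v i ^ 2).natDegree ≤ D + D := fun i => by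
    rw [sq]; exact natDegree_mul_le_of_le (h i) (h i)
  have hCsq : ∀ (a : k) (i : Fin 3), (C a * v i ^ 2).natDegree ≤ D + D := fun a i =>
    (natDegree_C_mul_le _ _).trans (hsq i)
  have h2 : ((2 : k[X]) * v 1 * v 0).natDegree ≤ D + D := by
    have := hC 2 1 0
    rwa [C_ofNat] at this
  have h4 : ((4 : k[X]) * v 0 * v 2).natDegree ≤ D + D := by
    have := hC 4 0 2
    rwa [C_ofNat] at this
  fin_cases j
  · simp only [asv, polyCurve, WeierstrassCurve.map_b₄, WeierstrassCurve.map_b₆,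
      WeierstrassCurve.map_b₈, Fin.zero_eta, Fin.isValue, Matrix.cons_val_zero]
    exact nd_sub (nd_sub (nd_sub (hsq 0) (hC _ 0 2)) (hC _ 1 2)) (hCsq _ 2)
  · simp only [asv, polyCurve, WeierstrassCurve.map_b₂, WeierstrassCurve.map_b₄,
      WeierstrassCurve.map_b₆, Fin.mk_one, Fin.isValue, Matrix.cons_val_one, Matrix.cons_val_zero]
    exact natDegree_add_le_of_degree_le (natDegree_add_le_of_degree_le
      (natDegree_add_le_of_degree_le h2 (hC _ 0 2)) (hC _ 1 2)) (hCsq _ 2)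
  · simp only [asv, Fin.reduceFinMk, Fin.isValue, Matrix.cons_val]
    exact nd_sub (hsq 1) h4

lemma topc_asv (v : Fin 3 → k[X]) {D : ℕ} (h : ∀ i, (v i).natDegree ≤ D) :
    topc (D + D) (asv (polyCurve W) v) = asv W (topc D v) := by
  have hm : ∀ i₁ i₂ : Fin 3, (v i₁ * v i₂).coeff (D + D) = (v i₁).coeff D * (v i₂).coeff D :=
    fun i₁ i₂ => coeff_mul_add_eq_of_natDegree_le (h i₁) (h i₂)
  have h2 : (2 : k[X]) = C 2 := (C_ofNat 2).symm
  have h4 : (4 : k[X]) = C 4 := (C_ofNat 4).symm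
  funext j
  fin_cases j
  · simp only [topc, asv, polyCurve, WeierstrassCurve.map_b₄, WeierstrassCurve.map_b₆,
      WeierstrassCurve.map_b₈, Fin.zero_eta, Fin.isValue, Matrix.cons_val_zero, sq, mul_assoc,
      coeff_sub, coeff_C_mul, hm]
  · simp only [topc, asv, polyCurve, WeierstrassCurve.map_b₂, WeierstrassCurve.map_b₄,
      WeierstrassCurve.map_b₆, Fin.mk_one, Fin.isValue, Matrix.cons_val_one,
      Matrix.cons_val_zero, sq, mul_assoc, coeff_add, coeff_C_mul, hm, h2]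
  · simp only [topc, asv, Fin.reduceFinMk, Fin.isValue, Matrix.cons_val, sq, mul_assoc,
      coeff_sub, coeff_C_mul, hm, h4]

/-- **Exactness**: the add-sub map of an elliptic curve doubles `maxDeg`. -/
theorem maxDeg_asv [W.IsElliptic] {v : Fin 3 → k[X]} (hv : v ≠ 0) :
    maxDeg (asv (polyCurve W) v) = 2 * maxDeg v := by
  rw [two_mul]
  apply maxDeg_eq_of_topc_ne_zero (natDegree_asv_le W v (natDegree_le_maxDeg v))
  rw [topc_asv W v (natDegree_le_maxDeg v), asv_eq_eval]
  exact W.addSubMap_ne_zero (topc_ne_zero hv)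

lemma natDegree_sv_le (a b : Fin 2 → k[X]) {D E : ℕ} (ha : ∀ i, (a i).natDegree ≤ D)
    (hb : ∀ i, (b i).natDegree ≤ E) (j : Fin 3) : (sv a b j).natDegree ≤ D + E := by
  fin_cases j
  · exact natDegree_mul_le_of_le (ha 0) (hb 0)
  · exact natDegree_add_le_of_degree_le (natDegree_mul_le_of_le (ha 0) (hb 1))
      (natDegree_mul_le_of_le (ha 1) (hb 0))
  · exact natDegree_mul_le_of_le (ha 1) (hb 1)

lemma topc_sv (a b : Fin 2 → k[X]) {D E : ℕ} (ha : ∀ i, (a i).natDegree ≤ D)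
    (hb : ∀ i, (b i).natDegree ≤ E) : topc (D + E) (sv a b) = sv (topc D a) (topc E b) := by
  have hm : ∀ i₁ i₂ : Fin 2, (a i₁ * b i₂).coeff (D + E) = (a i₁).coeff D * (b i₂).coeff E :=
    fun i₁ i₂ => coeff_mul_add_eq_of_natDegree_le (ha i₁) (hb i₂)
  funext j
  fin_cases j <;> simp [topc, sv, hm]

lemma sv_ne_zero {F : Type*} [Field F] {a b : Fin 2 → F} (ha : a ≠ 0) (hb : b ≠ 0) :
    sv a b ≠ 0 := by
  intro h
  have h0 : a 0 * b 0 = 0 := congrFun h 0
  have h1 : a 0 * b 1 + a 1 * b 0 = 0 := congrFun h 1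
  have h2 : a 1 * b 1 = 0 := congrFun h 2
  have ha' : ¬ (a 0 = 0 ∧ a 1 = 0) := fun ⟨x, y⟩ => ha (by
    funext i; fin_cases i
    · exact x
    · exact y)
  have hb' : ¬ (b 0 = 0 ∧ b 1 = 0) := fun ⟨x, y⟩ => hb (by
    funext i; fin_cases i
    · exact x
    · exact y)
  rcases mul_eq_zero.mp h0 with ha0 | hb0
  · have ha1 : a 1 ≠ 0 := fun h => ha' ⟨ha0, h⟩
    have hb1 : b 1 = 0 := (mul_eq_zero.mp h2).resolve_left ha1
    rw [ha0, zero_mul, zero_add] at h1
    exact hb' ⟨(mul_eq_zero.mp h1).resolve_left ha1, hb1⟩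
  · have hb1 : b 1 ≠ 0 := fun h => hb' ⟨hb0, h⟩
    have ha1 : a 1 = 0 := (mul_eq_zero.mp h2).resolve_right hb1
    rw [ha1, zero_mul, add_zero] at h1
    exact ha' ⟨(mul_eq_zero.mp h1).resolve_right hb1, ha1⟩

/-- **Gauss**: `maxDeg` is additive on symmetric products. -/
theorem maxDeg_sv {a b : Fin 2 → k[X]} (ha : a ≠ 0) (hb : b ≠ 0) :
    maxDeg (sv a b) = maxDeg a + maxDeg b := by
  apply maxDeg_eq_of_topc_ne_zero
    (natDegree_sv_le a b (natDegree_le_maxDeg a) (natDegree_le_maxDeg b))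
  rw [topc_sv a b (natDegree_le_maxDeg a) (natDegree_le_maxDeg b)]
  exact sv_ne_zero (topc_ne_zero ha) (topc_ne_zero hb)

/-- Two primitive vectors with vanishing cross products have the same `maxDeg`. -/
theorem maxDeg_eq_of_cross {n : ℕ} {v w : Fin n → k[X]} (hv : Prim v) (hw : Prim w)
    (h : ∀ i j, v i * w j = v j * w i) : maxDeg v = maxDeg w := by
  obtain ⟨c, hc⟩ := (prim_iff v).mp hv
  obtain ⟨d, hd⟩ := (prim_iff w).mp hw
  set u := ∑ j, c j * w j with hu
  set u' := ∑ j, d j * v j with hu'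
  have h1 : ∀ i, w i = v i * u := fun i => by
    calc w i = w i * ∑ j, c j * v j := by rw [hc, mul_one]
      _ = ∑ j, c j * (v j * w i) := by rw [Finset.mul_sum]; congr 1; funext j; ring
      _ = ∑ j, c j * (v i * w j) := by congr 1; funext j; rw [h i j]
      _ = v i * u := by rw [hu, Finset.mul_sum]; congr 1; funext j; ring
  have h2 : ∀ i, v i = w i * u' := fun i => by
    calc v i = v i * ∑ j, d j * w j := by rw [hd, mul_one]
      _ = ∑ j, d j * (v i * w j) := by rw [Finset.mul_sum]; congr 1; funext j; ring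
      _ = ∑ j, d j * (v j * w i) := by congr 1; funext j; rw [h i j]
      _ = w i * u' := by rw [hu', Finset.mul_sum]; congr 1; funext j; ring
  have hv0 := hv.ne_zero
  obtain ⟨i₀, hi₀⟩ : ∃ i, v i ≠ 0 := by
    by_contra hne
    push Not at hne
    exact hv0 (funext hne)
  have huu : u * u' = 1 := by
    have := h2 i₀
    rw [h1 i₀, mul_assoc] at this
    exact (mul_eq_left₀ hi₀).mp this.symm
  have hunit : IsUnit u := IsUnit.of_mul_eq_one _ huu
  obtain ⟨a, ha, hau⟩ : ∃ a : k, a ≠ 0 ∧ C a = u := by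
    obtain ⟨a, ha, hau⟩ := Polynomial.isUnit_iff.mp hunit
    exact ⟨a, ha.ne_zero, hau⟩
  have hdeg : ∀ i, (w i).natDegree = (v i).natDegree := fun i => by
    rw [h1 i, ← hau, mul_comm, natDegree_C_mul ha]
  simp only [maxDeg, hdeg]

end Poly

end Fermat.Agent.S52.H545
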