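import Mathlib

/-!
# S52 Part A, generic point setup (helper545): the function field of a Weierstrass curve

For a Weierstrass curve `W` over a field `k` (any Weierstrass form), inside Mathlib's
`W.FunctionField = Frac (k[X][Y] / W)`:

* `xF`, `yF` : the coordinate functions, `ιP : k[X] →+* W.FunctionField`, `ιK : RatFunc k →+* _`;
* `conjF : W.FunctionField →ₐ[k] W.FunctionField`, the hyperelliptic involution
  `x ↦ x`, `y ↦ -y - a₁ x - a₃`;
* `exists_repr` : every element is `(p + q y) / n` with `p q n : k[X]`, `n ≠ 0`;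
* `mem_range_ιK_of_conjF_eq` : in characteristic `≠ 2` the elements fixed by `conjF` are exactly
  the rational functions of `x`.
-/

set_option autoImplicit false

namespace Fermat.Agent.S52.H545

open WeierstrassCurve WeierstrassCurve.Affine Polynomial
open scoped Polynomial.Bivariate

variable {k : Type*} [Field k] (W : WeierstrassCurve.Affine k)

/-- The function `x` in the function field. -/
noncomputable def xF : W.FunctionField := algebraMap k[X] W.FunctionField X

/-- The function `y` in the function field. -/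
noncomputable def yF : W.FunctionField :=
  algebraMap W.CoordinateRing W.FunctionField (CoordinateRing.mk W Y)

/-- The embedding of polynomials in `x`. -/
noncomputable def ιP : k[X] →+* W.FunctionField := algebraMap k[X] W.FunctionField

lemma ιP_injective : Function.Injective (ιP W) :=
  FaithfulSMul.algebraMap_injective _ _

lemma ιP_X : ιP W X = xF W := rfl

lemma ιP_C (a : k) : ιP W (C a) = algebraMap k W.FunctionField a := by
  rw [ιP, ← Polynomial.algebraMap_eq, ← IsScalarTower.algebraMap_apply]

lemma ιP_eq (p : k[X]) : ιP W p =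
    algebraMap W.CoordinateRing W.FunctionField (CoordinateRing.mk W (C p)) := by
  rw [ιP, IsScalarTower.algebraMap_apply k[X] W.CoordinateRing W.FunctionField]
  rfl

lemma ιP_eq_zero {p : k[X]} : ιP W p = 0 ↔ p = 0 :=
  map_eq_zero_iff _ (ιP_injective W)

lemma mkY_sq : CoordinateRing.mk W Y ^ 2 + CoordinateRing.mk W (C (C W.a₁ * X + C W.a₃)) *
    CoordinateRing.mk W Y =
      CoordinateRing.mk W (C (X ^ 3 + C W.a₂ * X ^ 2 + C W.a₄ * X + C W.a₆)) := by
  have h : CoordinateRing.mk W (W.polynomial) = 0 := AdjoinRoot.mk_self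
  rw [← sub_eq_zero, ← map_pow, ← map_mul, ← map_add, ← map_sub, ← h]
  congr 1

lemma yF_sq : yF W ^ 2 + ιP W (C W.a₁ * X + C W.a₃) * yF W
    = ιP W (X ^ 3 + C W.a₂ * X ^ 2 + C W.a₄ * X + C W.a₆) := by
  rw [ιP_eq, ιP_eq, yF, ← map_pow, ← map_mul, ← map_add, mkY_sq]

/-- The Weierstrass equation for the generic point. -/
lemma yF_equation : yF W ^ 2 + algebraMap k W.FunctionField W.a₁ * xF W * yF W
      + algebraMap k W.FunctionField W.a₃ * yF W
    = xF W ^ 3 + algebraMap k W.FunctionField W.a₂ * xF W ^ 2
      + algebraMap k W.FunctionField W.a₄ * xF W + algebraMap k W.FunctionField W.a₆ := by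
  have h := yF_sq W
  simp only [map_add, map_mul, map_pow, ιP_C, ιP_X] at h
  linear_combination h

/-! ### The hyperelliptic involution -/

lemma polynomial_comp_negPolynomial :
    W.polynomial.eval₂ (C : k[X] →+* k[X][Y]) W.negPolynomial = W.polynomial := by
  rw [Affine.polynomial, Affine.negPolynomial]
  simp only [eval₂_add, eval₂_sub, eval₂_mul, eval₂_pow, eval₂_X, eval₂_C]
  ring

/-- The involution on the coordinate ring. -/
noncomputable def conjC : W.CoordinateRing →+* W.CoordinateRing :=
  AdjoinRoot.lift (AdjoinRoot.of W.polynomial) (CoordinateRing.mk W W.negPolynomial) (by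
    have h := hom_eval₂ W.polynomial (C : k[X] →+* k[X][Y]) (CoordinateRing.mk W) W.negPolynomial
    rw [polynomial_comp_negPolynomial] at h
    rw [show AdjoinRoot.of W.polynomial = (CoordinateRing.mk W).comp C from rfl, ← h]
    exact AdjoinRoot.mk_self)

lemma conjC_mk_C (p : k[X]) : conjC W (CoordinateRing.mk W (C p)) = CoordinateRing.mk W (C p) := by
  rw [conjC, AdjoinRoot.lift_mk, eval₂_C]; rfl

lemma conjC_mk_Y : conjC W (CoordinateRing.mk W Y) = CoordinateRing.mk W W.negPolynomial := by
  rw [conjC, AdjoinRoot.lift_mk, eval₂_X]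

lemma conjC_conjC (z : W.CoordinateRing) : conjC W (conjC W z) = z := by
  obtain ⟨p, q, rfl⟩ := CoordinateRing.exists_smul_basis_eq z
  simp only [CoordinateRing.smul, map_add, map_mul, map_one, conjC_mk_C, conjC_mk_Y]
  rw [Affine.negPolynomial]
  simp only [map_neg, map_add, map_sub, conjC_mk_C, conjC_mk_Y, Affine.negPolynomial]
  ring

lemma conjC_injective : Function.Injective (conjC W) :=
  Function.LeftInverse.injective (conjC_conjC W)

/-- The hyperelliptic involution as a ring homomorphism. -/
noncomputable def conjR : W.FunctionField →+* W.FunctionField :=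
  IsFractionRing.lift (A := W.CoordinateRing) (K := W.FunctionField)
      (g := (algebraMap W.CoordinateRing W.FunctionField).comp (conjC W))
      ((IsFractionRing.injective W.CoordinateRing W.FunctionField).comp (conjC_injective W))

lemma conjR_algebraMap (z : W.CoordinateRing) :
    conjR W (algebraMap W.CoordinateRing W.FunctionField z) =
      algebraMap W.CoordinateRing W.FunctionField (conjC W z) := by
  rw [conjR, IsFractionRing.lift_algebraMap, RingHom.comp_apply]

/-- The hyperelliptic involution `(x, y) ↦ (x, -y - a₁ x - a₃)` of the function field. -/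
noncomputable def conjF : W.FunctionField →ₐ[k] W.FunctionField :=
  { conjR W with
    commutes' := fun a => by
      have h1 : algebraMap k W.FunctionField a = algebraMap W.CoordinateRing W.FunctionField
          (CoordinateRing.mk W (C (C a))) := by
        rw [← ιP_eq, ιP_C]
      simp only [RingHom.toMonoidHom_eq_coe, OneHom.toFun_eq_coe, MonoidHom.toOneHom_coe,
        MonoidHom.coe_coe]
      rw [h1, conjR_algebraMap, conjC_mk_C] }

lemma conjF_algebraMap (z : W.CoordinateRing) :
    conjF W (algebraMap W.CoordinateRing W.FunctionField z) =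
      algebraMap W.CoordinateRing W.FunctionField (conjC W z) :=
  conjR_algebraMap W z

@[simp] lemma conjF_ιP (p : k[X]) : conjF W (ιP W p) = ιP W p := by
  rw [ιP_eq, conjF_algebraMap, conjC_mk_C]

@[simp] lemma conjF_xF : conjF W (xF W) = xF W := conjF_ιP W X

lemma conjF_yF : conjF W (yF W) = - yF W - ιP W (C W.a₁ * X + C W.a₃) := by
  rw [yF, conjF_algebraMap, conjC_mk_Y, ιP_eq, Affine.negPolynomial]
  simp only [map_neg, map_sub]

lemma conjF_conjF (z : W.FunctionField) : conjF W (conjF W z) = z := by
  obtain ⟨a, b, hb, rfl⟩ := IsFractionRing.div_surjective W.CoordinateRing z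
  simp only [map_div₀, conjF_algebraMap, conjC_conjC]

/-! ### Normal form of elements -/

/-- Separability of the `y`-coordinate over `k(x)`: the characteristic is `≠ 2`, or
`a₁ x + a₃ ≠ 0` (automatic for nonsingular curves in characteristic `2`). -/
def Sep : Prop := (2 : k) ≠ 0 ∨ W.a₁ ≠ 0 ∨ W.a₃ ≠ 0

lemma sep_of_two_ne_zero (h2 : (2 : k) ≠ 0) : Sep W := Or.inl h2

/-- `2 y + a₁ x + a₃` is nonzero (in characteristic `≠ 2`, or if `a₁ x + a₃ ≠ 0`). -/
lemma two_yF_add_ne_zero (hs : Sep W) :
    2 * yF W + ιP W (C W.a₁ * X + C W.a₃) ≠ 0 := by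
  intro h
  have h' : algebraMap W.CoordinateRing W.FunctionField
      ((C W.a₁ * X + C W.a₃ : k[X]) • (1 : W.CoordinateRing) +
        (2 : k[X]) • CoordinateRing.mk W Y) = 0 := by
    rw [CoordinateRing.smul, CoordinateRing.smul, map_add, map_mul, map_mul, map_one, mul_one,
      ← ιP_eq, ← ιP_eq, ← yF, ← h]
    simp only [map_ofNat]
    ring
  rw [map_eq_zero_iff _ (IsFractionRing.injective W.CoordinateRing W.FunctionField)] at h'
  have h0 := CoordinateRing.smul_basis_eq_zero h'
  rcases hs with h2 | h1 | h3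
  · have := h0.2
    have h2' : (2 : k[X]) = C (2 : k) := (C_ofNat 2).symm
    rw [h2', C_eq_zero] at this
    exact h2 this
  · apply h1
    have := congrArg (fun p : k[X] => p.coeff 1) h0.1
    simpa using this
  · apply h3
    have := congrArg (fun p : k[X] => p.coeff 0) h0.1
    simpa using this

/-- The norm form: `(r + s y)(r + s ȳ) ∈ k[X]`. -/
lemma mul_conjC (r s : k[X]) :
    (r • (1 : W.CoordinateRing) + s • CoordinateRing.mk W Y) *
      conjC W (r • (1 : W.CoordinateRing) + s • CoordinateRing.mk W Y) =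
    CoordinateRing.mk W (C (r ^ 2 - r * s * (C W.a₁ * X + C W.a₃)
      - s ^ 2 * (X ^ 3 + C W.a₂ * X ^ 2 + C W.a₄ * X + C W.a₆))) := by
  have hY := mkY_sq W
  simp only [CoordinateRing.smul, map_add, map_mul, conjC_mk_C, conjC_mk_Y, mul_one,
    Affine.negPolynomial, map_neg, map_sub, map_pow] at hY ⊢
  linear_combination (-(CoordinateRing.mk W (C s)) ^ 2) * hY

/-- Every element of the function field is of the form `(p + q y) / n`. -/
theorem exists_repr (z : W.FunctionField) :
    ∃ p q n : k[X], n ≠ 0 ∧ z * ιP W n = ιP W p + ιP W q * yF W := by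
  obtain ⟨a, b, hb, rfl⟩ := IsFractionRing.div_surjective W.CoordinateRing z
  have hb0 : b ≠ 0 := nonZeroDivisors.ne_zero hb
  obtain ⟨r, s, hrs⟩ := CoordinateRing.exists_smul_basis_eq b
  obtain ⟨p, q, hpq⟩ := CoordinateRing.exists_smul_basis_eq (a * conjC W b)
  set n : k[X] := r ^ 2 - r * s * (C W.a₁ * X + C W.a₃)
      - s ^ 2 * (X ^ 3 + C W.a₂ * X ^ 2 + C W.a₄ * X + C W.a₆) with hn
  have hbn : b * conjC W b = CoordinateRing.mk W (C n) := by
    rw [← hrs]; exact mul_conjC W r s
  have hcb : conjC W b ≠ 0 := fun h => hb0 (conjC_injective W (by rw [h, map_zero]))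
  have hn0 : n ≠ 0 := by
    intro h0
    rw [h0, C_0, map_zero] at hbn
    exact (mul_ne_zero hb0 hcb) hbn
  refine ⟨p, q, n, hn0, ?_⟩
  have hb' : algebraMap W.CoordinateRing W.FunctionField b ≠ 0 := by
    rwa [Ne, map_eq_zero_iff _ (IsFractionRing.injective W.CoordinateRing W.FunctionField)]
  rw [ιP_eq, ιP_eq, ιP_eq, yF, ← map_mul, ← map_add, ← hbn, map_mul, div_mul_eq_mul_div,
    div_eq_iff hb', ← map_mul, ← map_mul, ← map_mul]
  congr 1
  rw [CoordinateRing.smul, CoordinateRing.smul, mul_one] at hpq
  rw [hpq]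
  ring

/-- The embedding of `RatFunc k` (rational functions in `x`) in the function field. -/
noncomputable def ιK : RatFunc k →+* W.FunctionField :=
  RatFunc.liftRingHom (ιP W) (fun p hp => by
    rw [Submonoid.mem_comap]
    exact mem_nonZeroDivisors_of_ne_zero
      (fun h => nonZeroDivisors.ne_zero hp ((ιP_eq_zero W).mp h)))

lemma ιK_apply (r : RatFunc k) : ιK W r = ιP W r.num / ιP W r.denom :=
  RatFunc.liftRingHom_apply _ _ _

lemma ιK_div (p q : k[X]) :
    ιK W (algebraMap k[X] (RatFunc k) p / algebraMap k[X] (RatFunc k) q) = ιP W p / ιP W q :=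
  RatFunc.liftRingHom_apply_div _ _ _ _

lemma ιK_algebraMap (p : k[X]) : ιK W (algebraMap k[X] (RatFunc k) p) = ιP W p := by
  have := ιK_div W p 1
  simpa using this

lemma ιK_injective : Function.Injective (ιK W) :=
  RingHom.injective _

lemma ιK_X : ιK W RatFunc.X = xF W := by
  rw [← RatFunc.algebraMap_X, ιK_algebraMap, ιP_X]

lemma ιK_C (a : k) : ιK W (RatFunc.C a) = algebraMap k W.FunctionField a := by
  rw [← RatFunc.algebraMap_C, ιK_algebraMap, ιP_C]

@[simp] lemma conjF_ιK (r : RatFunc k) : conjF W (ιK W r) = ιK W r := by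
  rw [ιK_apply, map_div₀, conjF_ιP, conjF_ιP]

/-- If `Sep W` (e.g. in characteristic `≠ 2`), the elements fixed by the hyperelliptic involution
are the rational functions of `x`. -/
theorem mem_range_ιK_of_conjF_eq (hs : Sep W) {z : W.FunctionField}
    (hz : conjF W z = z) : ∃ r : RatFunc k, ιK W r = z := by
  obtain ⟨p, q, n, hn, h⟩ := exists_repr W z
  have hn' : ιP W n ≠ 0 := fun h0 => hn ((ιP_eq_zero W).mp h0)
  have h' := congrArg (conjF W) h
  rw [map_mul, map_add, map_mul, conjF_ιP, conjF_ιP, conjF_ιP, conjF_yF, hz] at h'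
  have hq : ιP W q * (2 * yF W + ιP W (C W.a₁ * X + C W.a₃)) = 0 := by
    linear_combination h' - h
  have hq0 : ιP W q = 0 := by
    rcases mul_eq_zero.mp hq with h0 | h0
    · exact h0
    · exact absurd h0 (two_yF_add_ne_zero W hs)
  refine ⟨algebraMap k[X] (RatFunc k) p / algebraMap k[X] (RatFunc k) n, ?_⟩
  rw [ιK_div, div_eq_iff hn', h, hq0]
  ring

end Fermat.Agent.S52.H545
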