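import Mathlib
import Fermat.Agent.S52.H545.FF
import Fermat.Agent.S52.H545.Core
import Fermat.Agent.S52.H309.AddSubValid

/-!
# S52 Part A (helper545): the generic point, the subgroup `M` and the exact height

`F` a field, `W₀` an elliptic curve over `F`, `κ` a field extension of `F` with `Sep`
(e.g. of characteristic `≠ 2`), `KK = κ(W₀)` the function field.  Inside the group `W₀(KK)` we consider

* `genericPoint = (x, y)`;
* `tauP` : the action of the hyperelliptic involution on points, and `MM = {P | τ P = -P}`,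
  a subgroup containing the generic point, whose affine points have `x`-coordinate in `κ(x)`;
* `hgt : W₀(KK) → ℕ`, the degree of the `x`-coordinate as a rational function of `x`;
* `hgt_parallelogram` : the exact parallelogram law on `MM`.
-/

set_option autoImplicit false

namespace Fermat.Agent.S52.H545

open WeierstrassCurve WeierstrassCurve.Affine Polynomial

variable {F : Type*} [Field F] (W₀ : WeierstrassCurve F)
variable (κ : Type*) [Field κ] [Algebra F κ]

/-- The curve over `κ`. -/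
abbrev Wκ : WeierstrassCurve.Affine κ := W₀⁄κ

/-- The function field of the curve over `κ`. -/
abbrev KK : Type _ := (Wκ W₀ κ).FunctionField

noncomputable instance instDecEqKK : DecidableEq (KK W₀ κ) := Classical.decEq _

/-- The group of points over the function field. -/
abbrev EK : Type _ := (W₀⁄(KK W₀ κ)).Point

lemma algebraMap_KK (a : F) :
    algebraMap F (KK W₀ κ) a = algebraMap κ (KK W₀ κ) (algebraMap F κ a) :=
  IsScalarTower.algebraMap_apply F κ (KK W₀ κ) a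

lemma generic_equation :
    (W₀⁄(KK W₀ κ)).Equation (xF (Wκ W₀ κ)) (yF (Wκ W₀ κ)) := by
  rw [Affine.equation_iff]
  have h := yF_equation (Wκ W₀ κ)
  simp only [Wκ, WeierstrassCurve.baseChange, WeierstrassCurve.map_a₁, WeierstrassCurve.map_a₂,
    WeierstrassCurve.map_a₃, WeierstrassCurve.map_a₄, WeierstrassCurve.map_a₆,
    ← algebraMap_KK] at h ⊢
  exact h

/-- The hyperelliptic involution acting on points. -/
noncomputable def tauP : EK W₀ κ →+ EK W₀ κ :=
  Point.map (W' := W₀) (conjF (Wκ W₀ κ))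

/-- The subgroup of points `P` with `τ P = -P`. -/
noncomputable def MM : AddSubgroup (EK W₀ κ) :=
  (tauP W₀ κ + AddMonoidHom.id _).ker

lemma mem_MM {P : EK W₀ κ} : P ∈ MM W₀ κ ↔ tauP W₀ κ P = -P := by
  rw [MM, AddMonoidHom.mem_ker, AddMonoidHom.add_apply, AddMonoidHom.id_apply,
    add_eq_zero_iff_eq_neg]

lemma tauP_some {X Y : KK W₀ κ} (h : (W₀⁄(KK W₀ κ)).Nonsingular X Y) :
    ∃ h', tauP W₀ κ (Point.some X Y h) =
      Point.some (conjF (Wκ W₀ κ) X) (conjF (Wκ W₀ κ) Y) h' :=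
  ⟨_, rfl⟩

/-- Affine points of `MM` have their `x`-coordinate in `κ(x)`. -/
lemma exists_ιK_eq_of_mem (hs : Sep (Wκ W₀ κ)) {X Y : KK W₀ κ}
    {h : (W₀⁄(KK W₀ κ)).Nonsingular X Y} (hM : Point.some X Y h ∈ MM W₀ κ) :
    ∃ r : RatFunc κ, ιK (Wκ W₀ κ) r = X := by
  rw [mem_MM] at hM
  obtain ⟨h', e⟩ := tauP_some W₀ κ h
  rw [e, Point.neg_some] at hM
  have hX : conjF (Wκ W₀ κ) X = X := by
    injection hM
  exact mem_range_ιK_of_conjF_eq _ hs hX

/-! ### The height -/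

open Classical in
/-- A primitive pair of polynomials representing the `x`-coordinate (`(1, 0)` for the point at
infinity). -/
noncomputable def xvec (P : EK W₀ κ) : Fin 2 → κ[X] :=
  match P with
  | .zero => ![1, 0]
  | .some X _ _ =>
    if h : ∃ r : RatFunc κ, ιK (Wκ W₀ κ) r = X then ![h.choose.num, h.choose.denom] else ![1, 0]

/-- The height: the degree of the `x`-coordinate as a rational function of `x`. -/
noncomputable def hgt (P : EK W₀ κ) : ℕ := maxDeg (xvec W₀ κ P)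

lemma xvec_zero : xvec W₀ κ (0 : EK W₀ κ) = ![1, 0] := rfl

lemma hgt_zero : hgt W₀ κ (0 : EK W₀ κ) = 0 := by
  rw [hgt, xvec_zero, maxDeg]
  apply Nat.le_zero.mp
  apply Finset.sup_le
  intro i _
  fin_cases i <;> simp

lemma xvec_some {X Y : KK W₀ κ} {h : (W₀⁄(KK W₀ κ)).Nonsingular X Y} (r : RatFunc κ)
    (hr : ιK (Wκ W₀ κ) r = X) : xvec W₀ κ (Point.some X Y h) = ![r.num, r.denom] := by
  have hex : ∃ r : RatFunc κ, ιK (Wκ W₀ κ) r = X := ⟨r, hr⟩
  have hc : hex.choose = r := ιK_injective _ (hex.choose_spec.trans hr.symm)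
  simp only [xvec, dif_pos hex, hc]

lemma prim_xvec (P : EK W₀ κ) : Prim (xvec W₀ κ P) := by
  rw [prim_pair_iff]
  rcases P with _ | ⟨X, Y, h⟩
  · exact ⟨1, 0, by simp [xvec]⟩
  · by_cases hex : ∃ r : RatFunc κ, ιK (Wκ W₀ κ) r = X
    · obtain ⟨r, hr⟩ := hex
      rw [xvec_some W₀ κ r hr]
      exact RatFunc.isCoprime_num_denom r
    · simp only [xvec, dif_neg hex]
      exact ⟨1, 0, by simp⟩

/-- For points of `MM` the pair `xvec` represents the `x`-coordinate. -/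
lemma ιP_xvec (hs : Sep (Wκ W₀ κ)) {P : EK W₀ κ} (hP : P ∈ MM W₀ κ) :
    ∃ c : KK W₀ κ, c ≠ 0 ∧ (ιP (Wκ W₀ κ)) ∘ (xvec W₀ κ P) = c • P.xRep := by
  rcases P with _ | ⟨X, Y, h⟩
  · refine ⟨1, one_ne_zero, ?_⟩
    funext i
    fin_cases i <;> simp [xvec, Point.xRep]
  · obtain ⟨r, hr⟩ := exists_ιK_eq_of_mem W₀ κ hs hP
    rw [xvec_some W₀ κ r hr]
    have hd : ιP (Wκ W₀ κ) r.denom ≠ 0 := fun h0 =>
      r.denom_ne_zero ((ιP_eq_zero _).mp h0)
    refine ⟨ιP (Wκ W₀ κ) r.denom, hd, ?_⟩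
    have hX : X = ιP (Wκ W₀ κ) r.num / ιP (Wκ W₀ κ) r.denom := by rw [← hr, ιK_apply]
    funext i
    fin_cases i
    · simp only [Point.xRep, Function.comp_apply, Pi.smul_apply, smul_eq_mul, Fin.zero_eta,
        Fin.isValue, Matrix.cons_val_zero]
      rw [hX, mul_div_cancel₀ _ hd]
    · simp [Point.xRep]

lemma sym2x_eq_sv (P Q : EK W₀ κ) : P.sym2x Q = sv P.xRep Q.xRep := rfl

lemma polyCurve_map :
    (polyCurve (Wκ W₀ κ)).map (ιP (Wκ W₀ κ)) = W₀.baseChange (KK W₀ κ) := by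
  ext <;>
  simp only [WeierstrassCurve.baseChange, WeierstrassCurve.map_a₁, WeierstrassCurve.map_a₂,
    WeierstrassCurve.map_a₃, WeierstrassCurve.map_a₄, WeierstrassCurve.map_a₆, ιP_C,
    ← algebraMap_KK]

/-! ### The generic point and the parallelogram law (elliptic case) -/

variable [W₀.IsElliptic]

instance instIsEllipticBaseChangeH545 {A : Type*} [CommRing A] [Algebra F A] :
    (W₀.baseChange A).IsElliptic :=
  inferInstanceAs (W₀.map (algebraMap F A)).IsElliptic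

lemma generic_nonsingular :
    (W₀⁄(KK W₀ κ)).Nonsingular (xF (Wκ W₀ κ)) (yF (Wκ W₀ κ)) :=
  Affine.equation_iff_nonsingular.mp (generic_equation W₀ κ)

/-- The generic point `(x, y)`. -/
noncomputable def genericPoint : EK W₀ κ :=
  Point.some _ _ (generic_nonsingular W₀ κ)

lemma genericPoint_mem : genericPoint W₀ κ ∈ MM W₀ κ := by
  rw [mem_MM, genericPoint]
  obtain ⟨h', e⟩ := tauP_some W₀ κ (generic_nonsingular W₀ κ)
  rw [e, Point.neg_some]
  congr 1
  · exact conjF_xF _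
  · rw [conjF_yF, Affine.negY]
    simp only [Wκ, WeierstrassCurve.baseChange, WeierstrassCurve.map_a₁,
      WeierstrassCurve.map_a₃, map_add, map_mul, ιP_C, ιP_X, ← algebraMap_KK]
    ring

/-- **The exact parallelogram law** on `MM`. -/
theorem hgt_parallelogram (hs : Sep (Wκ W₀ κ)) {P Q : EK W₀ κ} (hP : P ∈ MM W₀ κ)
    (hQ : Q ∈ MM W₀ κ) :
    hgt W₀ κ (P + Q) + hgt W₀ κ (P - Q) = 2 * hgt W₀ κ P + 2 * hgt W₀ κ Q := by
  have hPQ : P + Q ∈ MM W₀ κ := (MM W₀ κ).add_mem hP hQ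
  have hPQ' : P - Q ∈ MM W₀ κ := (MM W₀ κ).sub_mem hP hQ
  obtain ⟨cP, hcP, eP⟩ := ιP_xvec W₀ κ hs hP
  obtain ⟨cQ, hcQ, eQ⟩ := ιP_xvec W₀ κ hs hQ
  obtain ⟨cA, hcA, eA⟩ := ιP_xvec W₀ κ hs hPQ
  obtain ⟨cS, hcS, eS⟩ := ιP_xvec W₀ κ hs hPQ'
  obtain ⟨cL, hcL, eL⟩ := Fermat.Agent.S52.H309.addSubVec_sym2x (W := W₀⁄(KK W₀ κ)) P Q
  set v := sv (xvec W₀ κ P) (xvec W₀ κ Q) with hv
  set v' := sv (xvec W₀ κ (P + Q)) (xvec W₀ κ (P - Q)) with hv'
  set w := asv (polyCurve (Wκ W₀ κ)) v with hw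
  have pv : Prim v := prim_sv (prim_xvec W₀ κ P) (prim_xvec W₀ κ Q)
  have pv' : Prim v' := prim_sv (prim_xvec W₀ κ _) (prim_xvec W₀ κ _)
  haveI : (Wκ W₀ κ).IsElliptic := instIsEllipticBaseChangeH545 W₀
  have pw : Prim w := prim_asv _ pv
  have dv : maxDeg v = hgt W₀ κ P + hgt W₀ κ Q :=
    maxDeg_sv (prim_xvec W₀ κ P).ne_zero (prim_xvec W₀ κ Q).ne_zero
  have dv' : maxDeg v' = hgt W₀ κ (P + Q) + hgt W₀ κ (P - Q) :=
    maxDeg_sv (prim_xvec W₀ κ _).ne_zero (prim_xvec W₀ κ _).ne_zero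
  have dw : maxDeg w = 2 * maxDeg v := maxDeg_asv _ pv.ne_zero
  -- images in the function field
  have iv : (ιP (Wκ W₀ κ)) ∘ v = (cP * cQ) • P.sym2x Q := by
    rw [hv, ← sv_map, eP, eQ, sv_smul, sym2x_eq_sv]
  have iv' : (ιP (Wκ W₀ κ)) ∘ v' = (cA * cS) • (P + Q).sym2x (P - Q) := by
    rw [hv', ← sv_map, eA, eS, sv_smul, sym2x_eq_sv]
  have iw : (ιP (Wκ W₀ κ)) ∘ w = ((cP * cQ) ^ 2 * cL) • (P + Q).sym2x (P - Q) := by
    rw [hw, ← asv_map, polyCurve_map, iv, asv_smul, asv_eq_eval]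
    have : (fun i => MvPolynomial.eval (P.sym2x Q) ((W₀.baseChange (KK W₀ κ)).addSubMap i))
        = cL • (P + Q).sym2x (P - Q) := eL
    rw [this, smul_smul]
  have hcross : ∀ i j, w i * v' j = w j * v' i := by
    intro i j
    apply ιP_injective (Wκ W₀ κ)
    have e1 := congrFun iw i
    have e2 := congrFun iw j
    have e3 := congrFun iv' i
    have e4 := congrFun iv' j
    simp only [Function.comp_apply, Pi.smul_apply, smul_eq_mul] at e1 e2 e3 e4
    rw [map_mul, map_mul, e1, e2, e3, e4]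
    ring
  have := maxDeg_eq_of_cross pw pv' hcross
  rw [← dv', ← this, dw, dv]
  ring

end Fermat.Agent.S52.H545
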