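import Mathlib
import Fermat.Agent.S52.H545.Core

/-!
# S52 Part A (helper545): exactness of heights under a rational map `U/V` of degree `N`

For coprime `U V : k[X]` with `natDegree U = N`, `natDegree V ≤ N`, the map
`(n : d) ↦ (U^h(n,d) : V^h(n,d))` (homogenisations in degree `N`) sends primitive pairs of
polynomials to primitive pairs and multiplies `maxDeg` by exactly `N` (polynomial form of
`deg (R ∘ S) = deg R * deg S`).
-/

set_option autoImplicit false

namespace Fermat.Agent.S52.H545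

open Polynomial

section General

variable {k : Type*} [Field k]

/-- The degree-`N` homogenisation of `U`, with coefficients mapped by `φ`, evaluated at `(n, d)`. -/
noncomputable def hom2 {R : Type*} [CommRing R] (φ : k →+* R) (U : k[X]) (N : ℕ) (n d : R) : R :=
  ∑ i ∈ Finset.range (N + 1), φ (U.coeff i) * n ^ i * d ^ (N - i)

lemma map_hom2 {R S : Type*} [CommRing R] [CommRing S] (ψ : R →+* S) (φ : k →+* R) (U : k[X])
    (N : ℕ) (n d : R) : ψ (hom2 φ U N n d) = hom2 (ψ.comp φ) U N (ψ n) (ψ d) := by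
  simp only [hom2, map_sum, map_mul, map_pow, RingHom.comp_apply]

lemma hom2_of_ne_zero {L : Type*} [Field L] (φ : k →+* L) {U : k[X]} {N : ℕ}
    (hU : U.natDegree ≤ N) (n : L) {d : L} (hd : d ≠ 0) :
    hom2 φ U N n d = d ^ N * eval₂ φ (n / d) U := by
  rw [eval₂_eq_sum_range' φ (Nat.lt_succ_of_le hU), hom2, Finset.mul_sum]
  refine Finset.sum_congr rfl fun i hi => ?_
  have hi' : i ≤ N := Nat.lt_succ_iff.mp (Finset.mem_range.mp hi)
  have : d ^ N = d ^ i * d ^ (N - i) := by rw [← pow_add, Nat.add_sub_cancel' hi']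
  rw [this, div_pow]
  field_simp

lemma hom2_zero_right {R : Type*} [CommRing R] (φ : k →+* R) (U : k[X]) (N : ℕ) (n : R) :
    hom2 φ U N n 0 = φ (U.coeff N) * n ^ N := by
  rw [hom2, Finset.sum_eq_single N]
  · simp
  · intro i hi hne
    have hi' : i < N := lt_of_le_of_ne (Nat.lt_succ_iff.mp (Finset.mem_range.mp hi)) hne
    rw [zero_pow (Nat.sub_ne_zero_of_lt hi'), mul_zero]
  · intro h
    exact absurd (Finset.mem_range.mpr (Nat.lt_succ_self N)) h

/-- The two homogenisations of a coprime pair have no common nontrivial zero. -/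
lemma hom2_not_both_zero {L : Type*} [Field L] (φ : k →+* L) {U V : k[X]} {N : ℕ}
    (hcop : IsCoprime U V) (hU : U.natDegree = N) (hV : V.natDegree ≤ N) {n d : L}
    (hnd : ¬ (n = 0 ∧ d = 0)) : ¬ (hom2 φ U N n d = 0 ∧ hom2 φ V N n d = 0) := by
  rintro ⟨h1, h2⟩
  by_cases hd : d = 0
  · subst hd
    have hn : n ≠ 0 := fun h => hnd ⟨h, rfl⟩
    rw [hom2_zero_right] at h1
    have hU0 : U ≠ 0 := by
      rintro rfl
      obtain ⟨a, b, hab⟩ := hcop
      rw [mul_zero, zero_add] at hab
      have hV1 : IsUnit V := IsUnit.of_mul_eq_one _ ((mul_comm V b).trans hab)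
      have hVd := natDegree_eq_zero_of_isUnit hV1
      rw [natDegree_zero] at hU
      rw [← hU] at h1
      have hV' : V = C (V.coeff 0) := eq_C_of_natDegree_eq_zero hVd
      rw [hom2_zero_right, ← hU] at h2
      simp only [pow_zero, mul_one] at h2
      rw [map_eq_zero] at h2
      rw [hV', h2, C_0] at hV1
      exact not_isUnit_zero hV1
    have hlc : U.coeff N ≠ 0 := by
      rw [← hU, coeff_natDegree]
      exact leadingCoeff_ne_zero.mpr hU0
    rcases mul_eq_zero.mp h1 with h | h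
    · exact hlc ((map_eq_zero φ).mp h)
    · exact hn (pow_eq_zero_iff (M₀ := L) (n := N) (by
        rintro rfl
        simp at h) |>.mp h)
  · rw [hom2_of_ne_zero φ hU.le n hd] at h1
    rw [hom2_of_ne_zero φ hV n hd] at h2
    have e1 : eval₂ φ (n / d) U = 0 := (mul_eq_zero.mp h1).resolve_left (pow_ne_zero _ hd)
    have e2 : eval₂ φ (n / d) V = 0 := (mul_eq_zero.mp h2).resolve_left (pow_ne_zero _ hd)
    obtain ⟨a, b, hab⟩ := hcop
    have := congrArg (eval₂ φ (n / d)) hab
    rw [eval₂_add, eval₂_mul, eval₂_mul, e1, e2, mul_zero, mul_zero, add_zero, eval₂_one] at this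
    exact zero_ne_one this

end General

section Poly

variable {k : Type*} [Field k]

lemma maxDeg_fin2 (a : Fin 2 → k[X]) : maxDeg a = max (a 0).natDegree (a 1).natDegree := by
  apply le_antisymm
  · apply maxDeg_le
    intro i
    fin_cases i
    · exact le_max_left _ _
    · exact le_max_right _ _
  · exact max_le (natDegree_le_maxDeg a 0) (natDegree_le_maxDeg a 1)

lemma natDegree_hom2_le (U : k[X]) (N : ℕ) {n d : k[X]} {D : ℕ} (hn : n.natDegree ≤ D)
    (hd : d.natDegree ≤ D) : (hom2 (C : k →+* k[X]) U N n d).natDegree ≤ N * D := by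
  rw [hom2]
  apply natDegree_sum_le_of_forall_le
  intro i hi
  have hi' : i ≤ N := Nat.lt_succ_iff.mp (Finset.mem_range.mp hi)
  rw [mul_assoc]
  refine (natDegree_C_mul_le _ _).trans ?_
  have h1 : (n ^ i).natDegree ≤ i * D := natDegree_pow_le_of_le i hn
  have h2 : (d ^ (N - i)).natDegree ≤ (N - i) * D := natDegree_pow_le_of_le _ hd
  calc (n ^ i * d ^ (N - i)).natDegree ≤ i * D + (N - i) * D := natDegree_mul_le_of_le h1 h2
    _ = N * D := by rw [← add_mul, Nat.add_sub_cancel' hi']

lemma coeff_hom2 (U : k[X]) (N : ℕ) {n d : k[X]} {D : ℕ} (hn : n.natDegree ≤ D)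
    (hd : d.natDegree ≤ D) :
    (hom2 (C : k →+* k[X]) U N n d).coeff (N * D) =
      hom2 (RingHom.id k) U N (n.coeff D) (d.coeff D) := by
  rw [hom2, hom2, finsetSum_coeff]
  refine Finset.sum_congr rfl fun i hi => ?_
  have hi' : i ≤ N := Nat.lt_succ_iff.mp (Finset.mem_range.mp hi)
  have h1 : (n ^ i).natDegree ≤ i * D := natDegree_pow_le_of_le i hn
  have h2 : (d ^ (N - i)).natDegree ≤ (N - i) * D := natDegree_pow_le_of_le _ hd
  have hND : N * D = i * D + (N - i) * D := by rw [← add_mul, Nat.add_sub_cancel' hi']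
  rw [mul_assoc, coeff_C_mul, hND, coeff_mul_add_eq_of_natDegree_le h1 h2,
    coeff_pow_of_natDegree_le hn, coeff_pow_of_natDegree_le hd, RingHom.id_apply, mul_assoc]

/-- **Exactness for a rational map of degree `N`**: primitivity. -/
theorem prim_hom2 {U V : k[X]} {N : ℕ} (hcop : IsCoprime U V) (hU : U.natDegree = N)
    (hV : V.natDegree ≤ N) {a : Fin 2 → k[X]} (ha : Prim a) :
    Prim ![hom2 (C : k →+* k[X]) U N (a 0) (a 1), hom2 (C : k →+* k[X]) V N (a 0) (a 1)] := by
  by_contra hne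
  obtain ⟨m, hm, hle⟩ := Ideal.exists_le_maximal _ hne
  let _ : Field (k[X] ⧸ m) := Ideal.Quotient.field m
  set ψ : k[X] →+* (k[X] ⧸ m) := Ideal.Quotient.mk m with hψ
  have h0 : ψ (hom2 C U N (a 0) (a 1)) = 0 :=
    Ideal.Quotient.eq_zero_iff_mem.mpr (hle (Ideal.subset_span ⟨0, rfl⟩))
  have h1 : ψ (hom2 C V N (a 0) (a 1)) = 0 :=
    Ideal.Quotient.eq_zero_iff_mem.mpr (hle (Ideal.subset_span ⟨1, rfl⟩))
  rw [map_hom2] at h0 h1
  refine hom2_not_both_zero (ψ.comp C) hcop hU hV ?_ ⟨h0, h1⟩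
  rintro ⟨x0, x1⟩
  rw [prim_pair_iff] at ha
  obtain ⟨x, y, hxy⟩ := ha
  have := congrArg ψ hxy
  rw [map_add, map_mul, map_mul, x0, x1, mul_zero, mul_zero, add_zero, map_one] at this
  exact zero_ne_one this

/-- **Exactness for a rational map of degree `N`**: degrees. -/
theorem maxDeg_hom2 {U V : k[X]} {N : ℕ} (hcop : IsCoprime U V) (hU : U.natDegree = N)
    (hV : V.natDegree ≤ N) {a : Fin 2 → k[X]} (ha : a ≠ 0) :
    maxDeg ![hom2 (C : k →+* k[X]) U N (a 0) (a 1), hom2 (C : k →+* k[X]) V N (a 0) (a 1)]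
      = N * maxDeg a := by
  have hn := natDegree_le_maxDeg a 0
  have hd := natDegree_le_maxDeg a 1
  apply maxDeg_eq_of_topc_ne_zero
  · intro i
    fin_cases i
    · exact natDegree_hom2_le U N hn hd
    · exact natDegree_hom2_le V N hn hd
  · intro h
    have e0 := congrFun h 0
    have e1 := congrFun h 1
    simp only [topc, Fin.isValue, Matrix.cons_val_zero, Matrix.cons_val_one, Pi.zero_apply] at e0 e1
    rw [coeff_hom2 U N hn hd] at e0
    rw [coeff_hom2 V N hn hd] at e1
    refine hom2_not_both_zero (RingHom.id k) hcop hU hV ?_ ⟨e0, e1⟩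
    rintro ⟨x0, x1⟩
    apply topc_ne_zero ha
    funext i
    fin_cases i
    · exact x0
    · exact x1

theorem prim_hom2' {U V : k[X]} {N : ℕ} (hcop : IsCoprime U V) (hU : U.natDegree = N)
    (hV : V.natDegree ≤ N) {n d : k[X]} (hnd : IsCoprime n d) :
    Prim ![hom2 (C : k →+* k[X]) U N n d, hom2 (C : k →+* k[X]) V N n d] := by
  have ha : Prim ![n, d] := by rw [prim_pair_iff]; exact hnd
  have := prim_hom2 hcop hU hV ha
  simpa only [Fin.isValue, Matrix.cons_val_zero, Matrix.cons_val_one] using this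

theorem maxDeg_hom2' {U V : k[X]} {N : ℕ} (hcop : IsCoprime U V) (hU : U.natDegree = N)
    (hV : V.natDegree ≤ N) {n d : k[X]} (hnd : IsCoprime n d) :
    maxDeg ![hom2 (C : k →+* k[X]) U N n d, hom2 (C : k →+* k[X]) V N n d]
      = N * maxDeg ![n, d] := by
  have ha : Prim ![n, d] := by rw [prim_pair_iff]; exact hnd
  have := maxDeg_hom2 hcop hU hV ha.ne_zero
  simpa only [Fin.isValue, Matrix.cons_val_zero, Matrix.cons_val_one] using this

end Poly

end Fermat.Agent.S52.H545
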