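import Mathlib
import Fermat.Agent.S52.H545.Gen
import Fermat.Agent.S52.H545.Hom
import Fermat.Agent.S52.H545.Fq
import Fermat.Agent.S05.XOnlyFormulas

/-!
# S52 Part A (helper545): Frobenius on the generic-point model

`F` a finite field with `q` elements, `W₀/F` elliptic, `κ ⊇ F` of characteristic `≠ 2`.
`PhiP : W₀(KK) →+ W₀(KK)` is the `q`-power Frobenius on coordinates.  We show that it preserves
`MM`, that `hgt (Φ P) = q * hgt P` on `MM`, and that `hgt (Φ P - P) = N * hgt P` on `MM` as soon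
as Manin's rational function `Ũ/Ṽ` has reduced form `U₁/V₁` with `deg U₁ = N > deg V₁`
(`ManinData`).
-/

set_option autoImplicit false

namespace Fermat.Agent.S52.H545

open WeierstrassCurve WeierstrassCurve.Affine Polynomial

variable {F : Type*} [Field F] [Fintype F] (W₀ : WeierstrassCurve F)
variable (κ : Type*) [Field κ] [Algebra F κ]

/-- The `q`-power Frobenius of the function field, as an `F`-algebra endomorphism. -/
noncomputable def frobK : KK W₀ κ →ₐ[F] KK W₀ κ := FiniteField.frobeniusAlgHom F (KK W₀ κ)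

lemma frobK_apply (z : KK W₀ κ) : frobK W₀ κ z = z ^ Fintype.card F := rfl

/-- Frobenius on points. -/
noncomputable def PhiP : EK W₀ κ →+ EK W₀ κ := Point.map (W' := W₀) (frobK W₀ κ)

lemma PhiP_zero : PhiP W₀ κ 0 = 0 := map_zero _

lemma PhiP_some {X Y : KK W₀ κ} (h : (W₀⁄(KK W₀ κ)).Nonsingular X Y) :
    ∃ h', PhiP W₀ κ (Point.some X Y h) =
      Point.some (X ^ Fintype.card F) (Y ^ Fintype.card F) h' :=
  ⟨_, rfl⟩

lemma tauP_PhiP (P : EK W₀ κ) : tauP W₀ κ (PhiP W₀ κ P) = PhiP W₀ κ (tauP W₀ κ P) := by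
  rcases P with _ | ⟨X, Y, h⟩
  · rfl
  · obtain ⟨h1, e1⟩ := PhiP_some W₀ κ h
    obtain ⟨hs, e2⟩ := tauP_some W₀ κ h
    obtain ⟨h3, e3⟩ := tauP_some W₀ κ h1
    obtain ⟨h4, e4⟩ := PhiP_some W₀ κ hs
    rw [e1, e3, e2, e4]
    simp only [map_pow]

lemma PhiP_mem {P : EK W₀ κ} (hP : P ∈ MM W₀ κ) : PhiP W₀ κ P ∈ MM W₀ κ := by
  rw [mem_MM] at hP ⊢
  rw [tauP_PhiP, hP, map_neg]

/-- Any primitive pair representing the `x`-coordinate computes the height. -/
lemma hgt_eq_of_repr (hs : Sep (Wκ W₀ κ)) {P : EK W₀ κ} (hP : P ∈ MM W₀ κ) {a : Fin 2 → κ[X]}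
    (ha : Prim a) {c : KK W₀ κ} (hc : c ≠ 0) (h : (ιP (Wκ W₀ κ)) ∘ a = c • P.xRep) :
    hgt W₀ κ P = maxDeg a := by
  obtain ⟨c', hc', h'⟩ := ιP_xvec W₀ κ hs hP
  apply maxDeg_eq_of_cross (prim_xvec W₀ κ P) ha
  intro i j
  apply ιP_injective (Wκ W₀ κ)
  have e1 := congrFun h i
  have e2 := congrFun h j
  have e3 := congrFun h' i
  have e4 := congrFun h' j
  simp only [Function.comp_apply, Pi.smul_apply, smul_eq_mul] at e1 e2 e3 e4
  rw [map_mul, map_mul, e1, e2, e3, e4]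
  ring

variable [W₀.IsElliptic]

lemma hgt_neg (hs : Sep (Wκ W₀ κ)) {P : EK W₀ κ} (hP : P ∈ MM W₀ κ) :
    hgt W₀ κ (-P) = hgt W₀ κ P := by
  have := hgt_parallelogram W₀ κ hs (MM W₀ κ).zero_mem hP
  rw [zero_add, zero_sub, hgt_zero] at this
  omega

/-- `hgt (Φ P) = q * hgt P` on `MM`. -/
theorem hgt_PhiP (hs : Sep (Wκ W₀ κ)) {P : EK W₀ κ} (hP : P ∈ MM W₀ κ) :
    hgt W₀ κ (PhiP W₀ κ P) = Fintype.card F * hgt W₀ κ P := by
  rcases P with _ | ⟨X, Y, h⟩
  · change hgt W₀ κ (PhiP W₀ κ 0) = _ * hgt W₀ κ 0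
    rw [PhiP_zero, hgt_zero, mul_zero]
  · obtain ⟨r, hr⟩ := exists_ιK_eq_of_mem W₀ κ hs hP
    obtain ⟨h1, e1⟩ := PhiP_some W₀ κ h
    have hd : ιP (Wκ W₀ κ) r.denom ≠ 0 := fun h0 =>
      r.denom_ne_zero ((ιP_eq_zero _).mp h0)
    have hX : X = ιP (Wκ W₀ κ) r.num / ιP (Wκ W₀ κ) r.denom := by rw [← hr, ιK_apply]
    have hq : 0 < Fintype.card F := Fintype.card_pos
    have hrep : hgt W₀ κ (PhiP W₀ κ (Point.some X Y h)) =
        maxDeg ![r.num ^ Fintype.card F, r.denom ^ Fintype.card F] := by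
      apply hgt_eq_of_repr W₀ κ hs (PhiP_mem W₀ κ hP) (c := ιP (Wκ W₀ κ) r.denom ^ Fintype.card F)
      · rw [prim_pair_iff]
        exact (RatFunc.isCoprime_num_denom r).pow
      · exact pow_ne_zero _ hd
      · rw [e1]
        funext i
        fin_cases i
        · simp only [Point.xRep, Function.comp_apply, Pi.smul_apply, smul_eq_mul, Fin.zero_eta,
            Fin.isValue, Matrix.cons_val_zero, map_pow]
          rw [hX, div_pow, mul_div_cancel₀ _ (pow_ne_zero _ hd)]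
        · simp [Point.xRep]
    rw [hrep, hgt, xvec_some W₀ κ r hr, maxDeg_fin2, maxDeg_fin2]
    simp only [Fin.isValue, Matrix.cons_val_zero, Matrix.cons_val_one, natDegree_pow]
    rw [Nat.mul_max_mul_left]

/-! ### Manin's rational function -/

omit [W₀.IsElliptic] in
/-- The `2`-division cubic `4X³ + b₂X² + 2b₄X + b₆`. -/
noncomputable def gPoly : F[X] := 4 * X ^ 3 + C W₀.b₂ * X ^ 2 + 2 * C W₀.b₄ * X + C W₀.b₆

/-- Numerator of Manin's rational function `x(Φ P - P)` as a function of `x(P)`. -/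
noncomputable def manU : F[X] :=
  2 * (2 * (X ^ Fintype.card F + X) * (X ^ Fintype.card F * X)
      + C W₀.b₂ * (X ^ Fintype.card F * X) + C W₀.b₄ * (X ^ Fintype.card F + X) + C W₀.b₆)
    + 2 * gPoly W₀ ^ (Fintype.card F / 2 + 1)

/-- Denominator of Manin's rational function. -/
noncomputable def manV (F : Type*) [Field F] [Fintype F] : F[X] :=
  4 * (X ^ Fintype.card F - X) ^ 2

/-- The reduced form `U₁/V₁` of Manin's rational function `Ũ/Ṽ`, of degree `N`. -/
structure ManinData (N : ℕ) where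
  /-- the common factor -/
  G : F[X]
  /-- reduced numerator -/
  U₁ : F[X]
  /-- reduced denominator -/
  V₁ : F[X]
  hU : manU W₀ = G * U₁
  hV : manV F = G * V₁
  cop : IsCoprime U₁ V₁
  degU : U₁.natDegree = N
  degV : V₁.natDegree ≤ N

/-- A pair `(U, V)` of polynomials over `F` computing the `x`-coordinate of `Φ P - P` as the
rational function `U / V` of the `x`-coordinate of `P`. -/
structure ManinPair (U V : F[X]) : Prop where
  formula : ∀ {X Y : KK W₀ κ} (h : (W₀⁄(KK W₀ κ)).Nonsingular X Y), X ^ Fintype.card F ≠ X →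
    ∃ (x₃ y₃ : KK W₀ κ) (h₃ : (W₀⁄(KK W₀ κ)).Nonsingular x₃ y₃),
      PhiP W₀ κ (Point.some X Y h) - Point.some X Y h = Point.some x₃ y₃ h₃ ∧
      eval₂ (algebraMap F (KK W₀ κ)) X V * x₃ = eval₂ (algebraMap F (KK W₀ κ)) X U
  ne_zero : ∀ {X : KK W₀ κ}, X ^ Fintype.card F ≠ X → eval₂ (algebraMap F (KK W₀ κ)) X V ≠ 0

/-- The reduced form `U₁ / V₁` of a rational function `U / V`, of degree `N`. -/
structure RedData (U V : F[X]) (N : ℕ) where
  /-- the common factor -/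
  G : F[X]
  /-- reduced numerator -/
  U₁ : F[X]
  /-- reduced denominator -/
  V₁ : F[X]
  hU : U = G * U₁
  hV : V = G * V₁
  cop : IsCoprime U₁ V₁
  degU : U₁.natDegree = N
  degV : V₁.natDegree ≤ N

/-- `ManinData` is `RedData` for Manin's pair in odd characteristic. -/
def ManinData.toRedData {N : ℕ} (D : ManinData W₀ N) : RedData (manU W₀) (manV F) N :=
  ⟨D.G, D.U₁, D.V₁, D.hU, D.hV, D.cop, D.degU, D.degV⟩

omit [W₀.IsElliptic] in
lemma card_odd (h2 : (2 : κ) ≠ 0) : Fintype.card F % 2 = 1 := by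
  apply FiniteField.odd_card_of_char_ne_two
  intro h
  have _ : CharP F 2 := by rw [← h]; exact ringChar.charP F
  have h20 : (2 : F) = 0 := CharTwo.two_eq_zero
  apply h2
  have h20' := congrArg (algebraMap F κ) h20
  rw [map_ofNat, map_zero] at h20'
  exact h20'

open Fermat.Agent.S05 in
omit [W₀.IsElliptic] in
/-- The `x`-coordinate of `Φ P - P`. -/
lemma PhiP_sub_some (h2 : (2 : κ) ≠ 0) {X Y : KK W₀ κ}
    (h : (W₀⁄(KK W₀ κ)).Nonsingular X Y) (hX : X ^ Fintype.card F ≠ X) :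
    ∃ (x₃ y₃ : KK W₀ κ) (h₃ : (W₀⁄(KK W₀ κ)).Nonsingular x₃ y₃),
      PhiP W₀ κ (Point.some X Y h) - Point.some X Y h = Point.some x₃ y₃ h₃ ∧
      eval₂ (algebraMap F (KK W₀ κ)) X (manV F) * x₃ =
        eval₂ (algebraMap F (KK W₀ κ)) X (manU W₀) := by
  obtain ⟨h1, e1⟩ := PhiP_some W₀ κ h
  obtain ⟨xp, yp, xm, ym, hp, hm, -, esub, -, eform⟩ :=
    XOnly.add_sub_of_X_ne (W₀⁄(KK W₀ κ)) h1 h hX
  refine ⟨xm, ym, hm, by rw [e1, esub], ?_⟩
  have hodd := card_odd (F := F) κ h2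
  have hq : Fintype.card F + 1 = 2 * (Fintype.card F / 2 + 1) := by omega
  have heta : XOnly.eta (W₀⁄(KK W₀ κ)) (X ^ Fintype.card F) (Y ^ Fintype.card F) =
      XOnly.eta (W₀⁄(KK W₀ κ)) X Y ^ Fintype.card F := by
    simp only [XOnly.eta, WeierstrassCurve.baseChange, WeierstrassCurve.map_a₁,
      WeierstrassCurve.map_a₃, ← frobK_apply W₀ κ, map_add, map_mul, AlgHom.commutes, map_ofNat]
  have hsq := XOnly.eta_sq (W₀⁄(KK W₀ κ)) h.1
  have hprod : XOnly.eta (W₀⁄(KK W₀ κ)) (X ^ Fintype.card F) (Y ^ Fintype.card F) *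
      XOnly.eta (W₀⁄(KK W₀ κ)) X Y =
      XOnly.twoF (W₀⁄(KK W₀ κ)) X ^ (Fintype.card F / 2 + 1) := by
    rw [heta, ← pow_succ, hq, pow_mul, hsq]
  have eform' : 4 * (X ^ Fintype.card F - X) ^ 2 * xm =
      2 * XOnly.sumNum (W₀⁄(KK W₀ κ)) (X ^ Fintype.card F) X +
        2 * XOnly.twoF (W₀⁄(KK W₀ κ)) X ^ (Fintype.card F / 2 + 1) := by
    rw [← hprod, eform]; ring
  have eV : eval₂ (algebraMap F (KK W₀ κ)) X (manV F) = 4 * (X ^ Fintype.card F - X) ^ 2 := by
    simp [manV, eval₂_mul, eval₂_pow, eval₂_sub, eval₂_X]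
  have eU : eval₂ (algebraMap F (KK W₀ κ)) X (manU W₀) =
      2 * XOnly.sumNum (W₀⁄(KK W₀ κ)) (X ^ Fintype.card F) X +
        2 * XOnly.twoF (W₀⁄(KK W₀ κ)) X ^ (Fintype.card F / 2 + 1) := by
    simp only [manU, gPoly, XOnly.sumNum, XOnly.twoF, WeierstrassCurve.baseChange,
      WeierstrassCurve.map_b₂, WeierstrassCurve.map_b₄, WeierstrassCurve.map_b₆, eval₂_add,
      eval₂_mul, eval₂_pow, eval₂_X, eval₂_C, eval₂_ofNat]
  rw [eV, eU, ← eform']

omit [Fintype F] [W₀.IsElliptic] in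
lemma some_eq_some_h545 {x y x' y' : KK W₀ κ} (hx : x = x') (hy : y = y')
    (h : (W₀⁄(KK W₀ κ)).Nonsingular x y) (h' : (W₀⁄(KK W₀ κ)).Nonsingular x' y') :
    (Point.some x y h : EK W₀ κ) = Point.some x' y' h' := by
  subst hx hy; rfl

omit [Fintype F] [W₀.IsElliptic] in
lemma algebraMap_comp_eq :
    ((ιP (Wκ W₀ κ)).comp (C : κ →+* κ[X])).comp (algebraMap F κ) = algebraMap F (KK W₀ κ) := by
  ext a
  simp only [RingHom.comp_apply, ιP_C, ← algebraMap_KK]

omit [W₀.IsElliptic] in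
lemma ιP_hom2 (U : F[X]) {N : ℕ} (hU : U.natDegree ≤ N) (n : κ[X]) {d : κ[X]}
    (hd : ιP (Wκ W₀ κ) d ≠ 0) :
    ιP (Wκ W₀ κ) (hom2 (C : κ →+* κ[X]) (U.map (algebraMap F κ)) N n d) =
      ιP (Wκ W₀ κ) d ^ N *
        eval₂ (algebraMap F (KK W₀ κ)) (ιP (Wκ W₀ κ) n / ιP (Wκ W₀ κ) d) U := by
  rw [map_hom2, hom2_of_ne_zero _ ((natDegree_map_le).trans hU) _ hd, eval₂_map,
    algebraMap_comp_eq]

/-- `hgt (Φ P - P) = N * hgt P` on `MM`, given a pair `(U, V)` computing `x(Φ P - P)` and its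
reduced form. -/
theorem hgt_PhiP_sub_of_pair (hs : Sep (Wκ W₀ κ)) {U V : F[X]} (MP : ManinPair W₀ κ U V)
    {N : ℕ} (D : RedData U V N) {P : EK W₀ κ} (hP : P ∈ MM W₀ κ) : hgt W₀ κ (PhiP W₀ κ P - P) = N * hgt W₀ κ P := by
  rcases P with _ | ⟨X, Y, h⟩
  · change hgt W₀ κ (PhiP W₀ κ 0 - 0) = _ * hgt W₀ κ 0
    rw [PhiP_zero, sub_zero, hgt_zero, mul_zero]
  · obtain ⟨h1, e1⟩ := PhiP_some W₀ κ h
    by_cases hX : X ^ Fintype.card F = X
    · -- constant `x`-coordinate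
      obtain ⟨c, hc⟩ := exists_eq_algebraMap_of_pow_card_eq (F := F) hX
      have h0 : hgt W₀ κ (Point.some X Y h) = 0 := by
        have hrep : hgt W₀ κ (Point.some X Y h) = maxDeg ![C (algebraMap F κ c), (1 : κ[X])] := by
          apply hgt_eq_of_repr W₀ κ hs hP (c := 1)
          · rw [prim_pair_iff]
            exact ⟨0, 1, by simp⟩
          · exact one_ne_zero
          · funext i
            fin_cases i
            · simp [Point.xRep, ιP_C, ← algebraMap_KK, hc]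
            · simp [Point.xRep]
        rw [hrep, maxDeg_fin2]
        simp
      rw [h0, mul_zero]
      rcases Affine.Y_eq_of_X_eq h1.1 h.1 hX with hY | hY
      · have : PhiP W₀ κ (Point.some X Y h) = Point.some X Y h := by
          rw [e1]; exact some_eq_some_h545 W₀ κ hX hY _ _
        rw [this, sub_self, hgt_zero]
      · have : PhiP W₀ κ (Point.some X Y h) = -Point.some X Y h := by
          rw [e1, Point.neg_some]; exact some_eq_some_h545 W₀ κ hX hY _ _
        rw [this]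
        have hneg : -Point.some X Y h ∈ MM W₀ κ := (MM W₀ κ).neg_mem hP
        have hpar := hgt_parallelogram W₀ κ hs hneg hP
        rw [hgt_neg W₀ κ hs hP, h0, neg_add_cancel, hgt_zero] at hpar
        omega
    · obtain ⟨x₃, y₃, h₃, esub, eform⟩ := MP.formula h hX
      obtain ⟨r, hr⟩ := exists_ιK_eq_of_mem W₀ κ hs hP
      have hd : ιP (Wκ W₀ κ) r.denom ≠ 0 := fun h0 =>
        r.denom_ne_zero ((ιP_eq_zero _).mp h0)
      have hXr : X = ιP (Wκ W₀ κ) r.num / ιP (Wκ W₀ κ) r.denom := by rw [← hr, ιK_apply]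
      -- the reduced equation
      have hVne : eval₂ (algebraMap F (KK W₀ κ)) X V ≠ 0 := MP.ne_zero hX
      have eV : eval₂ (algebraMap F (KK W₀ κ)) X V =
          eval₂ (algebraMap F (KK W₀ κ)) X D.G * eval₂ (algebraMap F (KK W₀ κ)) X D.V₁ := by
        rw [← eval₂_mul, ← D.hV]
      have eU : eval₂ (algebraMap F (KK W₀ κ)) X U =
          eval₂ (algebraMap F (KK W₀ κ)) X D.G * eval₂ (algebraMap F (KK W₀ κ)) X D.U₁ := by
        rw [← eval₂_mul, ← D.hU]
      rw [eV] at hVne eform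
      rw [eU, mul_assoc] at eform
      have hG := left_ne_zero_of_mul hVne
      have hV1 := right_ne_zero_of_mul hVne
      have ered : eval₂ (algebraMap F (KK W₀ κ)) X D.V₁ * x₃ =
          eval₂ (algebraMap F (KK W₀ κ)) X D.U₁ := mul_left_cancel₀ hG eform
      -- the representation
      set A := hom2 (C : κ →+* κ[X]) (D.U₁.map (algebraMap F κ)) N r.num r.denom with hA
      set B := hom2 (C : κ →+* κ[X]) (D.V₁.map (algebraMap F κ)) N r.num r.denom with hB
      have eA : ιP (Wκ W₀ κ) A = ιP (Wκ W₀ κ) r.denom ^ N *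
          eval₂ (algebraMap F (KK W₀ κ)) X D.U₁ := by
        rw [hA, ιP_hom2 W₀ κ _ D.degU.le _ hd, ← hXr]
      have eB : ιP (Wκ W₀ κ) B = ιP (Wκ W₀ κ) r.denom ^ N *
          eval₂ (algebraMap F (KK W₀ κ)) X D.V₁ := by
        rw [hB, ιP_hom2 W₀ κ _ D.degV _ hd, ← hXr]
      have hcop : IsCoprime (D.U₁.map (algebraMap F κ)) (D.V₁.map (algebraMap F κ)) :=
        D.cop.map (Polynomial.mapRingHom (algebraMap F κ))
      have hdU : (D.U₁.map (algebraMap F κ)).natDegree = N := by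
        rw [natDegree_map, D.degU]
      have hdV : (D.V₁.map (algebraMap F κ)).natDegree ≤ N := by
        rw [natDegree_map]; exact D.degV
      have hprim : Prim ![A, B] := prim_hom2' hcop hdU hdV (RatFunc.isCoprime_num_denom r)
      have hdeg : maxDeg ![A, B] = N * maxDeg ![r.num, r.denom] :=
        maxDeg_hom2' hcop hdU hdV (RatFunc.isCoprime_num_denom r)
      have hmem : PhiP W₀ κ (Point.some X Y h) - Point.some X Y h ∈ MM W₀ κ :=
        (MM W₀ κ).sub_mem (PhiP_mem W₀ κ hP) hP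
      have hrep : hgt W₀ κ (PhiP W₀ κ (Point.some X Y h) - Point.some X Y h) = maxDeg ![A, B] := by
        apply hgt_eq_of_repr W₀ κ hs hmem hprim (c := ιP (Wκ W₀ κ) B)
        · rw [eB]; exact mul_ne_zero (pow_ne_zero _ hd) hV1
        · rw [esub]
          funext i
          fin_cases i
          · simp only [Point.xRep, Function.comp_apply, Pi.smul_apply, smul_eq_mul, Fin.zero_eta,
              Fin.isValue, Matrix.cons_val_zero]
            rw [eA, eB, ← ered]; ring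
          · simp [Point.xRep]
      rw [hrep, hdeg, hgt, xvec_some W₀ κ r hr]

/-- Manin's pair in odd characteristic. -/
theorem maninPair_odd (h2 : (2 : κ) ≠ 0) : ManinPair W₀ κ (manU W₀) (manV F) where
  formula := fun h hX => PhiP_sub_some W₀ κ h2 h hX
  ne_zero := by
    intro X hX
    have h4 : (4 : KK W₀ κ) ≠ 0 := by
      have h2' : (2 : KK W₀ κ) ≠ 0 := by
        intro h0
        apply h2
        have : algebraMap κ (KK W₀ κ) 2 = 0 := by rw [map_ofNat]; exact h0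
        exact (map_eq_zero _).mp this
      have : (4 : KK W₀ κ) = 2 * 2 := by norm_num
      rw [this]; exact mul_ne_zero h2' h2'
    have : eval₂ (algebraMap F (KK W₀ κ)) X (manV F) = 4 * (X ^ Fintype.card F - X) ^ 2 := by
      simp [manV, eval₂_mul, eval₂_pow, eval₂_sub, eval₂_X]
    rw [this]
    exact mul_ne_zero h4 (pow_ne_zero _ (sub_ne_zero.mpr hX))

/-- `hgt (Φ P - P) = N * hgt P` on `MM`, given the reduced form of Manin's rational function
(odd characteristic). -/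
theorem hgt_PhiP_sub (h2 : (2 : κ) ≠ 0) {N : ℕ} (D : ManinData W₀ N) {P : EK W₀ κ}
    (hP : P ∈ MM W₀ κ) : hgt W₀ κ (PhiP W₀ κ P - P) = N * hgt W₀ κ P :=
  hgt_PhiP_sub_of_pair W₀ κ (sep_of_two_ne_zero _ h2) (maninPair_odd W₀ κ h2) D.toRedData hP

end Fermat.Agent.S52.H545
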