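import Mathlib
import Fermat.Agent.S52.H545.Frob
import Fermat.Agent.S52.H127.QuadForm
import Fermat.Agent.Lib.FrobRel.H230Frob

/-!
# S52 Part A (helper545): the generic point is sent to a constant point by `Φ² − aΦ + q`

Assembly of the exact-height argument (Manin): on `MM ⊂ W₀(κ(W₀))` the height `hgt` satisfies
the exact parallelogram law (`Gen.lean`), `hgt (Φ P) = q · hgt P` and
`hgt (Φ P − P) = N · hgt P` (`Frob.lean`), hence `hgt ((Φ² − (q + 1 − N) Φ + q) P) = 0`
(helper127), and points of `MM` of height `0` are constant.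
-/

set_option autoImplicit false

namespace Fermat.Agent.S52.H545

open WeierstrassCurve WeierstrassCurve.Affine Polynomial
open Fermat.Agent.Lib.FrobRel

section Transc

variable {k : Type*} [Field k] (W : WeierstrassCurve.Affine k)

/-- The function `x` is transcendental over the base field. -/
theorem xF_transcendental : Transcendental k (xF W) := by
  rw [transcendental_iff_injective]
  intro p q hpq
  apply ιP_injective W
  have h : ∀ r : k[X], aeval (xF W) r = ιP W r := by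
    intro r
    rw [xF, aeval_algebraMap_apply, aeval_X_left_apply]
    rfl
  rw [← h, ← h, hpq]

end Transc

section Const

variable {F : Type*} [Field F] [Fintype F] (W₀ : WeierstrassCurve F)
variable (κ : Type*) [Field κ] [Algebra F κ]

omit [Fintype F] in
/-- Points of `MM` of height `0` are constant. -/
theorem isConstPt_of_hgt_eq_zero (hs : Sep (Wκ W₀ κ)) (halg : ∀ c : κ, IsAlgebraic F c)
    {P : EK W₀ κ} (hP : P ∈ MM W₀ κ) (h0 : hgt W₀ κ P = 0) : H230.IsConstPt W₀ P := by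
  rcases P with _ | ⟨X, Y, h⟩
  · exact Or.inl rfl
  · right
    refine ⟨X, Y, h, rfl, ?_⟩
    obtain ⟨r, hr⟩ := exists_ιK_eq_of_mem W₀ κ hs hP
    rw [hgt, xvec_some W₀ κ r hr, maxDeg_fin2] at h0
    simp only [Fin.isValue, Matrix.cons_val_zero, Matrix.cons_val_one] at h0
    have hn : r.num.natDegree = 0 := by
      have := le_max_left r.num.natDegree r.denom.natDegree
      omega
    have hd : r.denom.natDegree = 0 := by
      have := le_max_right r.num.natDegree r.denom.natDegree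
      omega
    have hX : X = algebraMap κ (KK W₀ κ) (r.num.coeff 0 / r.denom.coeff 0) := by
      rw [← hr, ιK_apply, eq_C_of_natDegree_eq_zero hn, eq_C_of_natDegree_eq_zero hd, ιP_C, ιP_C,
        map_div₀]
      simp
    rw [hX]
    exact (halg _).algebraMap

end Const

section Main

variable {F : Type*} [Field F] [Fintype F] (W₀ : WeierstrassCurve F)
variable (κ : Type*) [Field κ] [Algebra F κ]

/-- Frobenius restricted to `MM`. -/
noncomputable def PhiM : MM W₀ κ →+ MM W₀ κ :=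
  ((PhiP W₀ κ).comp (MM W₀ κ).subtype).codRestrict (MM W₀ κ) (fun P => PhiP_mem W₀ κ P.2)

lemma coe_PhiM (Q : MM W₀ κ) : ((PhiM W₀ κ Q : MM W₀ κ) : EK W₀ κ) = PhiP W₀ κ Q := rfl

variable [W₀.IsElliptic]

/-- **Exact-height argument.**  For `P ∈ MM`, the point `(Φ² − (q + 1 − N) Φ + q) P` is
constant, where `N` is the degree of the rational function `x(Φ P − P)` of `x(P)`. -/
theorem isConstPt_psi_of_pair (hs : Sep (Wκ W₀ κ)) (halg : ∀ c : κ, IsAlgebraic F c)
    {U V : Polynomial F} (MP : ManinPair W₀ κ U V) {N : ℕ} (D : RedData U V N)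
    {P : EK W₀ κ} (hP : P ∈ MM W₀ κ) :
    H230.IsConstPt W₀ (PhiP W₀ κ (PhiP W₀ κ P) - ((Fintype.card F : ℤ) + 1 - N) • PhiP W₀ κ P
      + (Fintype.card F : ℤ) • P) := by
  have hpar : H127.IsParNat (fun Q : MM W₀ κ => hgt W₀ κ (Q : EK W₀ κ)) := by
    intro Q R
    exact hgt_parallelogram W₀ κ hs Q.2 R.2
  have key := hpar.frobenius_relation (PhiM W₀ κ) (Fintype.card F) N
    (fun Q => hgt_PhiP W₀ κ hs Q.2) (fun Q => hgt_PhiP_sub_of_pair W₀ κ hs MP D Q.2) ⟨P, hP⟩
  set Rm : MM W₀ κ := PhiM W₀ κ (PhiM W₀ κ ⟨P, hP⟩)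
    - ((Fintype.card F : ℤ) + 1 - N) • PhiM W₀ κ ⟨P, hP⟩ + Fintype.card F • ⟨P, hP⟩ with hRm
  have hR : (Rm : EK W₀ κ) = PhiP W₀ κ (PhiP W₀ κ P)
      - ((Fintype.card F : ℤ) + 1 - N) • PhiP W₀ κ P + (Fintype.card F : ℤ) • P := by
    rw [hRm, AddSubgroup.coe_add, AddSubgroup.coe_sub, AddSubgroup.coe_zsmul,
      AddSubgroup.coe_nsmul, coe_PhiM, coe_PhiM, natCast_zsmul]
  rw [← hR]
  exact isConstPt_of_hgt_eq_zero W₀ κ hs halg Rm.2 key

/-- The exact-height argument in odd characteristic. -/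
theorem isConstPt_psi (h2 : (2 : κ) ≠ 0) (halg : ∀ c : κ, IsAlgebraic F c) {N : ℕ}
    (D : ManinData W₀ N) {P : EK W₀ κ} (hP : P ∈ MM W₀ κ) :
    H230.IsConstPt W₀ (PhiP W₀ κ (PhiP W₀ κ P) - ((Fintype.card F : ℤ) + 1 - N) • PhiP W₀ κ P
      + (Fintype.card F : ℤ) • P) :=
  isConstPt_psi_of_pair W₀ κ (sep_of_two_ne_zero _ h2) halg (maninPair_odd W₀ κ h2) D.toRedData hP

end Main

end Fermat.Agent.S52.H545
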